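/-
S25 / block CURVE, leaf S3 (helper807): maximal domain of regularity of a rational function.

`exists_maximal_extension_of_valuative` is the frozen statement of
`Fermat.Agent.S25.Curve.exists_maximal_extension`, for ANY integral scheme `C` all of whose local
rings are valuation rings of the function field (leaf S2d, taken as an explicit hypothesis).
Mathlib only.
-/
import Mathlib

set_option autoImplicit false

universe u

open CategoryTheory AlgebraicGeometry Opposite

namespace Fermat.Agent.S25.H807

variable {C : Scheme.{u}} [IsIntegral C]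

/-- Restriction does not change the image in the function field. -/
theorem germToFunctionField_res {U V : C.Opens} [Nonempty U] [Nonempty V] (h : V ≤ U)
    (s : Γ(C, U)) :
    C.germToFunctionField V (C.presheaf.map (homOfLE h).op s) = C.germToFunctionField U s := by
  unfold Scheme.germToFunctionField
  exact C.presheaf.germ_res_apply (homOfLE h) _ _ s

/-- Two nonempty opens of an irreducible space meet. -/
theorem nonempty_inf (U V : C.Opens) [hU : Nonempty U] [hV : Nonempty V] :
    Nonempty (U ⊓ V : C.Opens) := by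
  obtain ⟨⟨x, hx⟩⟩ := hU
  obtain ⟨⟨y, hy⟩⟩ := hV
  obtain ⟨z, hz⟩ := nonempty_preirreducible_inter U.isOpen V.isOpen ⟨x, hx⟩ ⟨y, hy⟩
  exact ⟨⟨z, hz⟩⟩

/-- Sections with the same image in the function field agree on the intersection. -/
theorem res_eq_res_of_germToFunctionField_eq {U V : C.Opens} [Nonempty U] [Nonempty V]
    (s : Γ(C, U)) (t : Γ(C, V))
    (h : C.germToFunctionField U s = C.germToFunctionField V t) :
    C.presheaf.map (homOfLE (inf_le_left : U ⊓ V ≤ U)).op s =
      C.presheaf.map (homOfLE (inf_le_right : U ⊓ V ≤ V)).op t := by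
  haveI := nonempty_inf U V
  apply C.germToFunctionField_injective (U ⊓ V)
  rw [germToFunctionField_res, germToFunctionField_res, h]

/-- **S3**, from the valuative property of the local rings (S2d). -/
theorem exists_maximal_extension_of_valuative
    (hval : ∀ (P : C) (f : C.functionField),
      f ∈ Set.range (algebraMap (C.presheaf.stalk P) C.functionField) ∨
        ∃ t ∈ IsLocalRing.maximalIdeal (C.presheaf.stalk P),
          algebraMap (C.presheaf.stalk P) C.functionField t * f = 1)
    {U : C.Opens} [Nonempty U] (s : Γ(C, U)) :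
    ∃ (U' : C.Opens) (hUU' : U ≤ U') (s' : Γ(C, U')),
      C.presheaf.map (homOfLE hUU').op s' = s ∧
      (∀ (W : C.Opens) (t : Γ(C, W)),
        C.presheaf.map (homOfLE (inf_le_left : U ⊓ W ≤ U)).op s =
          C.presheaf.map (homOfLE (inf_le_right : U ⊓ W ≤ W)).op t → W ≤ U') ∧
      (∀ P : C, P ∉ U' → ∃ (W : C.Opens) (t : Γ(C, W)), P ∈ W ∧ P ∉ C.basicOpen t ∧
        C.presheaf.map (homOfLE (inf_le_left : U' ⊓ W ≤ U')).op s' *
          C.presheaf.map (homOfLE (inf_le_right : U' ⊓ W ≤ W)).op t = 1) := by
  classical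
  set f : C.functionField := C.germToFunctionField U s with hf
  -- the index type: all local representatives of `f`
  let ι : Type u := {p : Σ W : C.Opens, Γ(C, W) //
    ∃ h : Nonempty p.1, (@Scheme.germToFunctionField C _ p.1 h) p.2 = f}
  let V : ι → C.Opens := fun i => i.1.1
  let sf : ∀ i : ι, Γ(C, V i) := fun i => i.1.2
  have hne : ∀ i : ι, Nonempty (V i) := fun i => i.2.choose
  have hsf : ∀ i : ι, (@Scheme.germToFunctionField C _ (V i) (hne i)) (sf i) = f :=
    fun i => i.2.choose_spec
  set U' : C.Opens := iSup V with hU'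
  have hcompat : TopCat.Presheaf.IsCompatible C.presheaf V sf := by
    intro i j
    haveI := hne i
    haveI := hne j
    exact res_eq_res_of_germToFunctionField_eq (sf i) (sf j) ((hsf i).trans (hsf j).symm)
  obtain ⟨s', hs', -⟩ := C.sheaf.existsUnique_gluing' V U' (fun i => homOfLE (le_iSup V i))
    le_rfl sf hcompat
  let i0 : ι := ⟨⟨U, s⟩, ⟨inferInstance, rfl⟩⟩
  have hUU' : U ≤ U' := le_iSup V i0
  haveI hneU' : Nonempty U' := by
    obtain ⟨⟨x, hx⟩⟩ := (inferInstance : Nonempty U)
    exact ⟨⟨x, hUU' hx⟩⟩
  have hs'U : C.presheaf.map (homOfLE hUU').op s' = s := hs' i0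
  have hs'f : C.germToFunctionField U' s' = f := by
    rw [← germToFunctionField_res hUU' s', hs'U]
  refine ⟨U', hUU', s', hs'U, ?_, ?_⟩
  · -- maximality
    intro W t ht x hxW
    haveI hneW : Nonempty W := ⟨⟨x, hxW⟩⟩
    haveI := nonempty_inf U W
    have h1 : C.germToFunctionField W t = f := by
      rw [← germToFunctionField_res (inf_le_right : U ⊓ W ≤ W) t, ← ht, germToFunctionField_res]
    let i1 : ι := ⟨⟨W, t⟩, ⟨hneW, h1⟩⟩
    exact le_iSup V i1 hxW
  · -- pole condition
    intro P hP
    rcases hval P f with ⟨g, hg⟩ | ⟨t₀, ht₀m, ht₀⟩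
    · exfalso
      obtain ⟨W, hPW, t, rfl⟩ := C.presheaf.exists_germ_eq g
      haveI hneW : Nonempty W := ⟨⟨P, hPW⟩⟩
      have h1 : C.germToFunctionField W t = f := by
        rw [← hg, Scheme.algebraMap_germ_eq_germToFunctionField]
      let i1 : ι := ⟨⟨W, t⟩, ⟨hneW, h1⟩⟩
      exact hP (le_iSup V i1 hPW)
    · obtain ⟨W, hPW, t, rfl⟩ := C.presheaf.exists_germ_eq t₀
      haveI hneW : Nonempty W := ⟨⟨P, hPW⟩⟩
      haveI := nonempty_inf U' W
      refine ⟨W, t, hPW, ?_, ?_⟩
      · rw [Scheme.mem_basicOpen C t P hPW]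
        exact (IsLocalRing.mem_maximalIdeal _).mp ht₀m
      · apply C.germToFunctionField_injective (U' ⊓ W)
        rw [map_mul, germToFunctionField_res, germToFunctionField_res, map_one, hs'f, mul_comm]
        rw [Scheme.algebraMap_germ_eq_germToFunctionField] at ht₀
        exact ht₀

end Fermat.Agent.S25.H807
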