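/-
S25 / block CURVE, leaf S2 (helper807): points and local rings of the curve, with the EXACT frozen
statements of `Fermat/Agent/S25/Curve/Stalks.lean` (explicit first argument `c`).
Built on helper627's `curve_C1` (on main).
-/
import Mathlib
import Fermat.Agent.S25.H627.CurveSchemeB

set_option autoImplicit false
set_option maxHeartbeats 400000

universe u

open CategoryTheory AlgebraicGeometry

namespace Fermat.Agent.S25.H807

/-- In a finite closed subset of a Jacobson space every point is closed. -/
theorem isClosed_singleton_of_mem_finite_closed {X : Type*} [TopologicalSpace X]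
    [JacobsonSpace X] {Z : Set X} (hZ : IsClosed Z) (hfin : Z.Finite) {P : X} (hP : P ∈ Z) :
    IsClosed ({P} : Set X) := by
  have h1 : closure (Z ∩ closedPoints X) = Z :=
    (JacobsonSpace.closure_inter_closedPoints_eq_closure hZ.isLocallyClosed).trans hZ.closure_eq
  have hfin' : (Z ∩ closedPoints X).Finite := hfin.subset Set.inter_subset_left
  have hcl : IsClosed (Z ∩ closedPoints X) := by
    have h2 : Z ∩ closedPoints X = ⋃ x ∈ Z ∩ closedPoints X, {x} := by
      ext y
      simp
    rw [h2]
    exact hfin'.isClosed_biUnion (fun x hx => hx.2)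
  rw [hcl.closure_eq] at h1
  have h3 : P ∈ Z ∩ closedPoints X := by
    rw [h1]
    exact hP
  exact h3.2

variable {k : Type u} [Field k] {C : Scheme.{u}} (c : C ⟶ Spec (CommRingCat.of k))
variable [IsAlgClosed k] [IsProper c] [SmoothOfRelativeDimension 1 c] [IsIntegral C]

include c

/-- **S2e.** A proper closed subset of `C` is a finite set of closed points. -/
theorem finite_of_isClosed_of_ne_univ {Z : Set C} (hZ : IsClosed Z) (hne : Z ≠ Set.univ) :
    Z.Finite ∧ ∀ P ∈ Z, IsClosed ({P} : Set C) := by
  obtain ⟨hcpt, -, hJ, -, -, hfin, -⟩ := H627.curve_C1 k c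
  have h := hfin Z hZ hne
  exact ⟨h, fun P hP => isClosed_singleton_of_mem_finite_closed hZ h hP⟩

/-- **S2a.** Every point of `C` is closed or the generic point. -/
theorem isClosed_singleton_or_eq_genericPoint (P : C) :
    IsClosed ({P} : Set C) ∨ P = genericPoint C := by
  by_cases h : closure ({P} : Set C) = Set.univ
  · right
    have hP : IsGenericPoint P (Set.univ : Set C) := h
    exact hP.eq (genericPoint_spec C)
  · left
    exact (finite_of_isClosed_of_ne_univ c isClosed_closure h).2 P (subset_closure rfl)

/-- **S2c.** Local rings at closed points are discrete valuation rings. -/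
theorem isDiscreteValuationRing_stalk (P : C) (hP : IsClosed ({P} : Set C)) :
    IsDiscreteValuationRing (C.presheaf.stalk P) :=
  H627.isDiscreteValuationRing_stalk_of_isClosed k c P hP

/-- **S2b.** The generic point is not closed. -/
theorem not_isClosed_singleton_genericPoint : ¬ IsClosed ({genericPoint C} : Set C) := by
  intro h
  haveI := isDiscreteValuationRing_stalk c (genericPoint C) h
  exact IsDiscreteValuationRing.not_isField (C.presheaf.stalk (genericPoint C))
    (Field.toIsField C.functionField)

/-- **S2d.** Every local ring of `C` is a valuation ring of the function field: for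
`f ∈ K(C)`, either `f ∈ O_P` or `f⁻¹ ∈ m_P`. -/
theorem mem_range_or_exists_mem_maximalIdeal (P : C) (f : C.functionField) :
    f ∈ Set.range (algebraMap (C.presheaf.stalk P) C.functionField) ∨
      ∃ t ∈ IsLocalRing.maximalIdeal (C.presheaf.stalk P),
        algebraMap (C.presheaf.stalk P) C.functionField t * f = 1 := by
  haveI := H627.valuationRing_stalk k c P
  by_cases hf : f ∈ Set.range (algebraMap (C.presheaf.stalk P) C.functionField)
  · exact Or.inl hf
  · right
    rcases ValuationRing.isInteger_or_isInteger (C.presheaf.stalk P) f with ⟨a, ha⟩ | ⟨t, ht⟩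
    · exact absurd ⟨a, ha⟩ hf
    · have hf0 : f ≠ 0 := by
        rintro rfl
        exact hf ⟨0, map_zero _⟩
      refine ⟨t, ?_, ?_⟩
      · rw [IsLocalRing.mem_maximalIdeal, mem_nonunits_iff]
        intro hu
        obtain ⟨u, rfl⟩ := hu
        apply hf
        refine ⟨((u⁻¹ : (C.presheaf.stalk P)ˣ) : C.presheaf.stalk P), ?_⟩
        have h1 : algebraMap (C.presheaf.stalk P) C.functionField (u : C.presheaf.stalk P) *
            algebraMap (C.presheaf.stalk P) C.functionField
              ((u⁻¹ : (C.presheaf.stalk P)ˣ) : C.presheaf.stalk P) = 1 := by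
          rw [← map_mul, Units.mul_inv, map_one]
        rw [ht] at h1
        have h2 : f⁻¹ ≠ 0 := inv_ne_zero hf0
        field_simp at h1
        exact h1
      · rw [ht]
        exact inv_mul_cancel₀ hf0

end Fermat.Agent.S25.H807
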