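/-
S25 / block CURVE, leaf S3 (helper807): EXACT frozen statement of
`Fermat.Agent.S25.Curve.exists_maximal_extension` (explicit first argument `c`), sorry-free.
-/
import Mathlib
import Fermat.Agent.S25.H807.Poles
import Fermat.Agent.S25.H807.Stalks

set_option autoImplicit false

universe u

open CategoryTheory AlgebraicGeometry

namespace Fermat.Agent.S25.H807

variable {k : Type u} [Field k] {C : Scheme.{u}} (c : C ⟶ Spec (CommRingCat.of k))
variable [IsAlgClosed k] [IsProper c] [SmoothOfRelativeDimension 1 c] [IsIntegral C]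

include c

/-- **S3.** A section `s` over a nonempty open `U` extends to a largest open `U'`, and at every
point outside `U'` the inverse `1/s` is regular and vanishes (`s` has a pole). -/
theorem exists_maximal_extension {U : C.Opens} [Nonempty U] (s : Γ(C, U)) :
    ∃ (U' : C.Opens) (hUU' : U ≤ U') (s' : Γ(C, U')),
      C.presheaf.map (homOfLE hUU').op s' = s ∧
      (∀ (W : C.Opens) (t : Γ(C, W)),
        C.presheaf.map (homOfLE (inf_le_left : U ⊓ W ≤ U)).op s =
          C.presheaf.map (homOfLE (inf_le_right : U ⊓ W ≤ W)).op t → W ≤ U') ∧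
      (∀ P : C, P ∉ U' → ∃ (W : C.Opens) (t : Γ(C, W)), P ∈ W ∧ P ∉ C.basicOpen t ∧
        C.presheaf.map (homOfLE (inf_le_left : U' ⊓ W ≤ U')).op s' *
          C.presheaf.map (homOfLE (inf_le_right : U' ⊓ W ≤ W)).op t = 1) :=
  exists_maximal_extension_of_valuative
    (fun P f => mem_range_or_exists_mem_maximalIdeal c P f) s

end Fermat.Agent.S25.H807
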